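import Fermat.Agent.S55.E1.Defs

/-!
# S55 / layer G / block CM, leaf SUBCM (helper514): class modules at `p` restrict to subgroups

Pure algebra (Mathlib + `T/Spec` + `E1/Defs`).  For `Γ' ≤ Γ` and `H ≤ Γ'` let `H' ≤ Γ` be the
image of `H`.  Then `Hⁿ(H, (C|Γ')|H) ≅ Hⁿ(H', C|H')` (`subIso`, Mathlib `groupCohomology.mapIso`
along `H ≃* H'`), compatibly with the restriction maps from `Hⁿ(Γ, C)` (`subIso_inv_res`).
Hence `E1.IsClassModuleAt p C γ → E1.IsClassModuleAt p (C|Γ') (res γ)` (`subClassModule`).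
-/

set_option autoImplicit false

open CategoryTheory groupCohomology

noncomputable section

namespace Fermat.Agent.S55.G.CM.H514

open Fermat.Agent.S55

section Generic

variable {k Γ : Type} [CommRing k] [Group Γ] (C : Rep.{0} k Γ) (Γ' : Subgroup Γ)
  (H : Subgroup Γ')

/-- `H ≃* H'`, `H'` the image of `H ≤ Γ'` in `Γ`. -/
def subEquiv : H ≃* H.map Γ'.subtype :=
  H.equivMapOfInjective Γ'.subtype Γ'.subtype_injective

@[simp] theorem coe_subEquiv (g : H) : ((subEquiv Γ' H g : H.map Γ'.subtype) : Γ) = ((g : Γ') : Γ) :=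
  rfl

/-- `Hⁿ(H, (C|Γ')|H) ≅ Hⁿ(H', C|H')`. -/
def subIso (n : ℕ) :
    groupCohomology (T.resSub (T.resSub C Γ') H) n ≅
      groupCohomology (T.resSub C (H.map Γ'.subtype)) n :=
  groupCohomology.mapIso (A := T.resSub C (H.map Γ'.subtype))
    (B := T.resSub (T.resSub C Γ') H) (subEquiv Γ' H) (LinearEquiv.refl k C.V)
    (fun _ => rfl) n

/-- `subIso` is compatible with the restrictions from `Γ`. -/
theorem resMap_comp_subIso_inv (n : ℕ) :
    T.resMap C (H.map Γ'.subtype) n ≫ (subIso C Γ' H n).inv =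
      T.resMap C Γ' n ≫ T.resMap (T.resSub C Γ') H n := by
  change groupCohomology.map _ _ n ≫ groupCohomology.map _ _ n =
    groupCohomology.map _ _ n ≫ groupCohomology.map _ _ n
  rw [← groupCohomology.map_comp, ← groupCohomology.map_comp]
  exact groupCohomology.map_congr (by ext g; rfl) rfl n

theorem subIso_inv_res (n : ℕ) (γ : groupCohomology C n) :
    (subIso C Γ' H n).inv.hom ((T.resMap C (H.map Γ'.subtype) n).hom γ) =
      (T.resMap (T.resSub C Γ') H n).hom ((T.resMap C Γ' n).hom γ) := by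
  have h := congrArg (fun f => f.hom γ) (resMap_comp_subIso_inv C Γ' H n)
  simpa using h

end Generic

variable {Γ : Type} [Group Γ] (C : Rep.{0} ℤ Γ)

/-- **SUBCM**: a class module at `p` restricts to a class module at `p` on every subgroup. -/
theorem subClassModule (p : ℕ) [Finite Γ] (γ : groupCohomology C 2)
    (h : E1.IsClassModuleAt p C γ) (Γ' : Subgroup Γ) :
    E1.IsClassModuleAt p (T.resSub C Γ') ((T.resMap C Γ' 2).hom γ) := by
  intro H hH
  have hH' : IsPGroup p (H.map Γ'.subtype) := hH.map Γ'.subtype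
  obtain ⟨h1, h2, h3⟩ := h (H.map Γ'.subtype) hH'
  refine ⟨?_, ?_, ?_⟩
  · exact Limits.IsZero.of_iso h1 (subIso C Γ' H 1)
  · rw [Nat.card_congr (subIso C Γ' H 2).toLinearEquiv.toEquiv, h2]
    exact Nat.card_congr (subEquiv Γ' H).symm.toEquiv
  · intro x
    obtain ⟨n, hn⟩ := h3 ((subIso C Γ' H 2).hom.hom x)
    refine ⟨n, ?_⟩
    have h4 := congrArg (subIso C Γ' H 2).inv.hom hn
    rw [map_nsmul, subIso_inv_res] at h4
    rw [← h4]
    exact ((subIso C Γ' H 2).toLinearEquiv.symm_apply_apply x).symm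

end Fermat.Agent.S55.G.CM.H514
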