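import Fermat.Agent.S55.G.CM.Spec
import Fermat.Agent.S55.G.CM.H514.SubCMCore

/-!
# S55 / layer G / block CM, leaf **SUBCM** (helper514; subtask 610)

`subClassModuleSpec : G.CM.SubClassModuleSpec` — hand-in at the exact frozen type of
`Fermat/Agent/S55/G/CM/Spec.lean`.
-/

set_option autoImplicit false

namespace Fermat.Agent.S55.G.CM.H514

/-- **G-CM:SUBCM**: a class module at `p` restricts to a class module at `p` on every
subgroup. -/
theorem subClassModuleSpec : Fermat.Agent.S55.G.CM.SubClassModuleSpec :=
  fun p _ _ _ C γ h Γ' => subClassModule C p γ h Γ'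

end Fermat.Agent.S55.G.CM.H514
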